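import Mathlib
import Fermat.Prelude.Def_FLTPrelim_GaloisRep

/-!
# Squad S51/S38, piece (A): `E[3]` is nontrivial

For a Weierstrass curve with nonzero discriminant over an algebraically closed field in which
`3 ≠ 0` we exhibit a nonzero point killed by `3`.
-/

set_option autoImplicit false

namespace Fermat.Agent.S51.Sq38.ThreeNontrivial

open WeierstrassCurve Polynomial

section General

variable {K : Type*} [Field K]

/-- The key identity: on the curve, `fx² + a₁ fx ψ₂ - (a₂ + 3x) ψ₂² = -ψ₃(x)`. -/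
lemma key_identity (E : WeierstrassCurve.Affine K) {x y : K} (heq : E.Equation x y) :
    (3 * x ^ 2 + 2 * E.a₂ * x + E.a₄ - E.a₁ * y) ^ 2
      + E.a₁ * (3 * x ^ 2 + 2 * E.a₂ * x + E.a₄ - E.a₁ * y) * (2 * y + E.a₁ * x + E.a₃)
      - (E.a₂ + 3 * x) * (2 * y + E.a₁ * x + E.a₃) ^ 2
    = -(3 * x ^ 4 + E.b₂ * x ^ 3 + 3 * E.b₄ * x ^ 2 + 3 * E.b₆ * x + E.b₈) := by
  rw [WeierstrassCurve.Affine.equation_iff] at heq
  simp only [WeierstrassCurve.b₂, WeierstrassCurve.b₄, WeierstrassCurve.b₆, WeierstrassCurve.b₈]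
  linear_combination (-(E.a₁ ^ 2 + 4 * E.a₂ + 12 * x)) * heq

variable [DecidableEq K]

/-- A point on the curve whose `x`-coordinate is a root of `ψ₃` is killed by `3`. -/
lemma three_smul_eq_zero (E : WeierstrassCurve.Affine K) {x y : K} (h : E.Nonsingular x y)
    (hψ : 3 * x ^ 4 + E.b₂ * x ^ 3 + 3 * E.b₄ * x ^ 2 + 3 * E.b₆ * x + E.b₈ = 0) :
    (3 : ℤ) • (WeierstrassCurve.Affine.Point.some x y h) = 0 := by
  have heq : E.Equation x y := h.1
  have hkey := key_identity E heq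
  rw [hψ, neg_zero] at hkey
  -- `ψ₂ ≠ 0`
  have hy : y ≠ E.negY x y := by
    intro hy
    have hψ₂ : 2 * y + E.a₁ * x + E.a₃ = 0 := by
      rw [WeierstrassCurve.Affine.negY] at hy
      linear_combination hy
    rw [hψ₂] at hkey
    have hfx : 3 * x ^ 2 + 2 * E.a₂ * x + E.a₄ - E.a₁ * y = 0 := by
      have : (3 * x ^ 2 + 2 * E.a₂ * x + E.a₄ - E.a₁ * y) ^ 2 = 0 := by
        linear_combination hkey
      exact pow_eq_zero_iff (two_ne_zero) |>.mp this
    rcases (WeierstrassCurve.Affine.nonsingular_iff x y).mp h with ⟨-, h1 | h2⟩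
    · exact h1 (by linear_combination -hfx)
    · exact h2 (by linear_combination hψ₂)
  have hψ₂ : 2 * y + E.a₁ * x + E.a₃ ≠ 0 := by
    intro h0
    apply hy
    rw [WeierstrassCurve.Affine.negY]
    linear_combination h0
  -- the doubling formula
  have hdbl := WeierstrassCurve.Affine.Point.add_self_of_Y_ne (h₁ := h) hy
  have hslope : E.slope x x y y
      = (3 * x ^ 2 + 2 * E.a₂ * x + E.a₄ - E.a₁ * y) / (2 * y + E.a₁ * x + E.a₃) := by
    rw [WeierstrassCurve.Affine.slope_of_Y_ne rfl hy, WeierstrassCurve.Affine.negY]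
    congr 1
    ring
  have hX : E.addX x x (E.slope x x y y) = x := by
    have aux : ∀ n d a₁ a₂ : K, d ≠ 0 →
        (n / d) ^ 2 + a₁ * (n / d) - a₂ - x - x - x
          = (n ^ 2 + a₁ * n * d - (a₂ + 3 * x) * d ^ 2) / d ^ 2 := by
      intro n d a₁ a₂ hd
      field_simp
      ring
    have e : E.addX x x (E.slope x x y y) - x
        = ((3 * x ^ 2 + 2 * E.a₂ * x + E.a₄ - E.a₁ * y) ^ 2
          + E.a₁ * (3 * x ^ 2 + 2 * E.a₂ * x + E.a₄ - E.a₁ * y) * (2 * y + E.a₁ * x + E.a₃)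
          - (E.a₂ + 3 * x) * (2 * y + E.a₁ * x + E.a₃) ^ 2) / (2 * y + E.a₁ * x + E.a₃) ^ 2 := by
      rw [WeierstrassCurve.Affine.addX, hslope]
      exact aux _ _ _ _ hψ₂
    rw [hkey, zero_div] at e
    exact sub_eq_zero.mp e
  -- `2P` has the same `x`-coordinate as `P`
  have h2 : WeierstrassCurve.Affine.Point.some x y h + WeierstrassCurve.Affine.Point.some x y h
      = -WeierstrassCurve.Affine.Point.some x y h := by
    rw [hdbl]
    rcases (WeierstrassCurve.Affine.Point.X_eq_iff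
      (h₁ := WeierstrassCurve.Affine.nonsingular_add h h fun hxy => hy hxy.right) (h₂ := h)).mp hX
      with hP | hP
    · exfalso
      rw [← hdbl] at hP
      have : WeierstrassCurve.Affine.Point.some x y h = 0 := by
        have := congrArg (fun Q => Q - WeierstrassCurve.Affine.Point.some x y h) hP
        simp at this
      exact WeierstrassCurve.Affine.Point.some_ne_zero h this
    · exact hP
  have h3 : (3 : ℤ) • WeierstrassCurve.Affine.Point.some x y h
      = (WeierstrassCurve.Affine.Point.some x y h + WeierstrassCurve.Affine.Point.some x y h)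
        + WeierstrassCurve.Affine.Point.some x y h := by
    rw [show (3 : ℤ) = 1 + 1 + 1 by norm_num, add_smul, add_smul, one_smul]
  rw [h3, h2, neg_add_cancel]

variable [IsAlgClosed K]

/-- Over an algebraically closed field with `3 ≠ 0`, a Weierstrass curve with `Δ ≠ 0` has a
nonzero point killed by `3`. -/
theorem exists_three_torsion (E : WeierstrassCurve.Affine K) (hΔ : E.Δ ≠ 0) (h3 : (3 : K) ≠ 0) :
    ∃ P : E.Point, P ≠ 0 ∧ (3 : ℤ) • P = 0 := by
  -- a root of `ψ₃`
  obtain ⟨x, hx⟩ : ∃ x : K,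
      3 * x ^ 4 + E.b₂ * x ^ 3 + 3 * E.b₄ * x ^ 2 + 3 * E.b₆ * x + E.b₈ = 0 := by
    set ψ : K[X] := C 3 * X ^ 4 + C E.b₂ * X ^ 3 + C (3 * E.b₄) * X ^ 2 + C (3 * E.b₆) * X
      + C E.b₈ with hψ
    have hdeg : ψ.degree = 4 := by
      rw [hψ]
      compute_degree!
    obtain ⟨x, hx⟩ := IsAlgClosed.exists_root ψ (by rw [hdeg]; norm_num)
    refine ⟨x, ?_⟩
    have := hx
    rw [hψ] at this
    simp only [IsRoot.def, eval_add, eval_mul, eval_C, eval_pow, eval_X] at this
    linear_combination this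
  -- a root `y` of the Weierstrass equation at `x`
  obtain ⟨y, hy⟩ : ∃ y : K, E.Equation x y := by
    set q : K[X] := X ^ 2 + C (E.a₁ * x + E.a₃) * X
      - C (x ^ 3 + E.a₂ * x ^ 2 + E.a₄ * x + E.a₆) with hq
    have hdeg : q.degree = 2 := by
      rw [hq]
      compute_degree!
    obtain ⟨y, hy⟩ := IsAlgClosed.exists_root q (by rw [hdeg]; norm_num)
    refine ⟨y, ?_⟩
    rw [WeierstrassCurve.Affine.equation_iff]
    have := hy
    rw [hq] at this
    simp only [IsRoot.def, eval_add, eval_sub, eval_mul, eval_C, eval_pow, eval_X] at this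
    linear_combination this
  have hns : E.Nonsingular x y :=
    (WeierstrassCurve.Affine.equation_iff_nonsingular_of_Δ_ne_zero hΔ).mp hy
  exact ⟨.some x y hns, WeierstrassCurve.Affine.Point.some_ne_zero hns,
    three_smul_eq_zero E hns hx⟩

end General

open scoped WeierstrassCurve.Affine

/-- The discriminant of the base change to `ℚ̄` of an integral model with `Δ ≠ 0` is nonzero. -/
lemma baseChange_Δ_ne_zero (W : WeierstrassCurve ℤ) (hΔ : W.Δ ≠ 0) :
    ((W.map (Int.castRingHom ℚ))⁄(AlgebraicClosure ℚ)).Δ ≠ 0 := by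
  show ((W.map (Int.castRingHom ℚ)).map (algebraMap ℚ (AlgebraicClosure ℚ))).Δ ≠ 0
  rw [WeierstrassCurve.map_Δ, WeierstrassCurve.map_Δ]
  simpa using hΔ

/-- **Piece (A)**: the `3`-torsion of the base change to `ℚ̄` is nontrivial. -/
theorem nontrivial_torsion_three (W : WeierstrassCurve ℤ) (hΔ : W.Δ ≠ 0) :
    Nontrivial (Submodule.torsionBy ℤ
      ((W.map (Int.castRingHom ℚ))⁄(AlgebraicClosure ℚ)).Point ((3 : ℕ) : ℤ)) := by
  obtain ⟨P, hP0, hP3⟩ := exists_three_torsion
    ((W.map (Int.castRingHom ℚ))⁄(AlgebraicClosure ℚ)) (baseChange_Δ_ne_zero W hΔ)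
    (by norm_num)
  have hmem : P ∈ Submodule.torsionBy ℤ
      ((W.map (Int.castRingHom ℚ))⁄(AlgebraicClosure ℚ)).Point ((3 : ℕ) : ℤ) := by
    rw [Submodule.mem_torsionBy_iff]
    exact_mod_cast hP3
  refine ⟨⟨⟨P, hmem⟩, 0, ?_⟩⟩
  intro h
  exact hP0 (congrArg Subtype.val h)

end Fermat.Agent.S51.Sq38.ThreeNontrivial

section Check
open WeierstrassCurve
open scoped WeierstrassCurve.Affine
example (W : WeierstrassCurve ℤ) (hΔ : W.Δ ≠ 0)
    (h : ∀ N : Submodule (ZMod 3) (Submodule.torsionBy ℤ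
      ((W.map (Int.castRingHom ℚ))⁄(AlgebraicClosure ℚ)).Point ((3 : ℕ) : ℤ)),
      WeierstrassCurve.Affine.Point.IsGaloisStable ℚ N → N = ⊥ ∨ N = ⊤) :
    WeierstrassCurve.Affine.Point.GaloisRepIsIrreducible (K := AlgebraicClosure ℚ) ℚ
      (W.map (Int.castRingHom ℚ)) 3 :=
  ⟨Fermat.Agent.S51.Sq38.ThreeNontrivial.nontrivial_torsion_three W hΔ, h⟩
end Check
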