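import Mathlib
import Fermat.Prelude.Def_FLTPrelim_GaloisRep
import Fermat.Agent.S51.Sq38.ThreeNontrivial

/-!
# Squad S51/S38, piece I2(b): `E[5]` is nontrivial

For a Weierstrass curve with nonzero discriminant over an algebraically closed field of
characteristic zero we exhibit a nonzero point killed by `5`: any point whose `x`-coordinate is a
root of the fifth division polynomial `ψ₅ = preΨ₄ · ψ₂⁴ - ψ₃³`.
-/

set_option autoImplicit false

namespace Fermat.Agent.S51.Sq38.FiveNontrivial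

open WeierstrassCurve Polynomial
open Fermat.Agent.S51.Sq38.ThreeNontrivial

section Identities

variable {R : Type*} [CommRing R] (W : WeierstrassCurve R)

/-- `ψ₃` as a function of `x`. -/
def psi3 (x : R) : R := 3 * x ^ 4 + W.b₂ * x ^ 3 + 3 * W.b₄ * x ^ 2 + 3 * W.b₆ * x + W.b₈

/-- `ψ₂²` as a function of `x`. -/
def D (x : R) : R := 4 * x ^ 3 + W.b₂ * x ^ 2 + 2 * W.b₄ * x + W.b₆

/-- `ψ₄ / ψ₂` as a function of `x`. -/
def pre4 (x : R) : R :=
  2 * x ^ 6 + W.b₂ * x ^ 5 + 5 * W.b₄ * x ^ 4 + 10 * W.b₆ * x ^ 3 + 10 * W.b₈ * x ^ 2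
    + (W.b₂ * W.b₈ - W.b₄ * W.b₆) * x + (W.b₄ * W.b₈ - W.b₆ ^ 2)

/-- `ψ₅` as a function of `x`. -/
def psi5 (x : R) : R := pre4 W x * D W x ^ 2 - psi3 W x ^ 3

/-- The numerator of the duplication map on `x`-coordinates. -/
def N (x : R) : R := x * D W x - psi3 W x

set_option maxHeartbeats 4000000 in
/-- `ψ₂(2P)² ψ₂(P)⁶ = (ψ₄/ψ₂)(P)²`. -/
theorem idD (x : R) :
    4 * N W x ^ 3 + W.b₂ * N W x ^ 2 * D W x + 2 * W.b₄ * N W x * D W x ^ 2 + W.b₆ * D W x ^ 3
      = pre4 W x ^ 2 := by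
  simp only [N, D, psi3, pre4, WeierstrassCurve.b₂, WeierstrassCurve.b₄, WeierstrassCurve.b₆,
    WeierstrassCurve.b₈]
  ring

set_option maxHeartbeats 40000000 in
/-- `ψ₃(2P) ψ₂(P)⁸ = ψ₃(P) (ψ₅(P) - (ψ₄/ψ₂)(P)²)`. -/
theorem idE (x : R) :
    3 * N W x ^ 4 + W.b₂ * N W x ^ 3 * D W x + 3 * W.b₄ * N W x ^ 2 * D W x ^ 2
        + 3 * W.b₆ * N W x * D W x ^ 3 + W.b₈ * D W x ^ 4
      = psi3 W x * (psi5 W x - pre4 W x ^ 2) := by
  simp only [N, D, psi3, pre4, psi5, WeierstrassCurve.b₂, WeierstrassCurve.b₄,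
    WeierstrassCurve.b₆, WeierstrassCurve.b₈]
  ring

end Identities

section Field

variable {K : Type*} [Field K] (E : WeierstrassCurve.Affine K)

/-- `D(x₂) D(x)³ = pre4(x)²` for `x₂ = x - ψ₃(x)/D(x)`. -/
lemma D_dbl {x : K} (hD : D E x ≠ 0) :
    D E (x - psi3 E x / D E x) * D E x ^ 3 = pre4 E x ^ 2 := by
  have hx2 : x - psi3 E x / D E x = N E x / D E x := by
    rw [N]; field_simp
  rw [hx2, ← idD E x]
  generalize N E x = n
  generalize hd : D E x = d at hD
  rw [D]
  field_simp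

/-- `ψ₃(x₂) D(x)⁴ = ψ₃(x) (ψ₅(x) - pre4(x)²)` for `x₂ = x - ψ₃(x)/D(x)`. -/
lemma psi3_dbl {x : K} (hD : D E x ≠ 0) :
    psi3 E (x - psi3 E x / D E x) * D E x ^ 4 = psi3 E x * (psi5 E x - pre4 E x ^ 2) := by
  have hx2 : x - psi3 E x / D E x = N E x / D E x := by
    rw [N]; field_simp
  rw [hx2, ← idE E x]
  generalize N E x = n
  generalize hd : D E x = d at hD
  rw [psi3]
  field_simp

/-- On the curve, `ψ₂² = D`. -/
lemma psi2_sq {x y : K} (heq : E.Equation x y) :
    (2 * y + E.a₁ * x + E.a₃) ^ 2 = D E x := by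
  rw [WeierstrassCurve.Affine.equation_iff] at heq
  simp only [D, WeierstrassCurve.b₂, WeierstrassCurve.b₄, WeierstrassCurve.b₆]
  linear_combination 4 * heq

lemma negY_ne_iff {x y : K} (heq : E.Equation x y) : y ≠ E.negY x y ↔ D E x ≠ 0 := by
  rw [← psi2_sq E heq, WeierstrassCurve.Affine.negY, ne_eq, ne_eq, not_iff_not,
    pow_eq_zero_iff two_ne_zero]
  constructor
  · intro h; linear_combination h
  · intro h; linear_combination h

variable [DecidableEq K]

/-- Points with `D(x) = 0` are `2`-torsion. -/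
lemma add_self_of_D_eq_zero {x y : K} (h : E.Nonsingular x y) (hD : D E x = 0) :
    WeierstrassCurve.Affine.Point.some x y h + WeierstrassCurve.Affine.Point.some x y h = 0 := by
  apply WeierstrassCurve.Affine.Point.add_self_of_Y_eq
  by_contra hy
  exact (negY_ne_iff E h.1).mp hy hD

/-- The duplication formula on `x`-coordinates. -/
lemma add_self_of_D_ne_zero {x y : K} (h : E.Nonsingular x y) (hD : D E x ≠ 0) :
    ∃ (y₂ : K) (h₂ : E.Nonsingular (x - psi3 E x / D E x) y₂),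
      WeierstrassCurve.Affine.Point.some x y h + WeierstrassCurve.Affine.Point.some x y h
        = WeierstrassCurve.Affine.Point.some (x - psi3 E x / D E x) y₂ h₂ := by
  have hy : y ≠ E.negY x y := (negY_ne_iff E h.1).mpr hD
  have hψ₂ : 2 * y + E.a₁ * x + E.a₃ ≠ 0 := by
    intro h0
    apply hy
    rw [WeierstrassCurve.Affine.negY]
    linear_combination h0
  have hdbl := WeierstrassCurve.Affine.Point.add_self_of_Y_ne (h₁ := h) hy
  have hslope : E.slope x x y y
      = (3 * x ^ 2 + 2 * E.a₂ * x + E.a₄ - E.a₁ * y) / (2 * y + E.a₁ * x + E.a₃) := by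
    rw [WeierstrassCurve.Affine.slope_of_Y_ne rfl hy, WeierstrassCurve.Affine.negY]
    congr 1
    ring
  have hX : E.addX x x (E.slope x x y y) = x - psi3 E x / D E x := by
    have aux : ∀ n d a₁ a₂ : K, d ≠ 0 →
        (n / d) ^ 2 + a₁ * (n / d) - a₂ - x - x
          = x + (n ^ 2 + a₁ * n * d - (a₂ + 3 * x) * d ^ 2) / d ^ 2 := by
      intro n d a₁ a₂ hd
      field_simp
      ring
    rw [WeierstrassCurve.Affine.addX, hslope, aux _ _ _ _ hψ₂, key_identity E h.1,
      psi2_sq E h.1, psi3]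
    ring
  have key : ∀ (x' y' : K) (h' : E.Nonsingular x' y'), x' = x - psi3 E x / D E x →
      ∃ (y₂ : K) (h₂ : E.Nonsingular (x - psi3 E x / D E x) y₂),
        WeierstrassCurve.Affine.Point.some x' y' h'
          = WeierstrassCurve.Affine.Point.some (x - psi3 E x / D E x) y₂ h₂ := by
    rintro x' y' h' rfl
    exact ⟨y', h', rfl⟩
  rw [hdbl]
  exact key _ _ _ hX

/-- A point whose `x`-coordinate is a root of `ψ₃` is killed by `3` (restated with `psi3`). -/
lemma three_smul_eq_zero' {x y : K} (h : E.Nonsingular x y) (hψ : psi3 E x = 0) :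
    (3 : ℤ) • (WeierstrassCurve.Affine.Point.some x y h) = 0 :=
  three_smul_eq_zero E h hψ

/-- Conversely the `x`-coordinate of a nonzero point killed by `3` is a root of `ψ₃`. -/
lemma psi3_eq_zero_of_three_smul {x y : K} (h : E.Nonsingular x y)
    (h3 : (3 : ℤ) • (WeierstrassCurve.Affine.Point.some x y h) = 0) : psi3 E x = 0 := by
  set P := WeierstrassCurve.Affine.Point.some x y h with hP
  have h3' : P + P + P = 0 := by
    rw [← h3, show (3 : ℤ) = 1 + 1 + 1 by norm_num, add_smul, add_smul, one_smul]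
  by_cases hD : D E x = 0
  · exfalso
    have h2 := add_self_of_D_eq_zero E h hD
    rw [← hP] at h2
    rw [h2, zero_add] at h3'
    exact WeierstrassCurve.Affine.Point.some_ne_zero h h3'
  · obtain ⟨y₂, h₂, h2⟩ := add_self_of_D_ne_zero E h hD
    rw [← hP] at h2
    have h2' : P + P = -P := eq_neg_of_add_eq_zero_left h3'
    rw [h2, hP, WeierstrassCurve.Affine.Point.neg_some] at h2'
    have hx : x - psi3 E x / D E x = x := by
      injection h2'
    have : psi3 E x / D E x = 0 := by linear_combination -hx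
    rcases div_eq_zero_iff.mp this with h0 | h0
    · exact h0
    · exact absurd h0 hD

/-- **Key lemma**: a point whose `x`-coordinate is a root of `ψ₅` is killed by `5`. -/
theorem five_smul_eq_zero {x y : K} (h : E.Nonsingular x y) (h5 : psi5 E x = 0) :
    (5 : ℤ) • (WeierstrassCurve.Affine.Point.some x y h) = 0 := by
  set P := WeierstrassCurve.Affine.Point.some x y h with hP
  have hP0 : P ≠ 0 := WeierstrassCurve.Affine.Point.some_ne_zero h
  have h5' : pre4 E x * D E x ^ 2 = psi3 E x ^ 3 := by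
    rw [psi5] at h5
    linear_combination h5
  -- Step 1: `D x ≠ 0`
  have hD : D E x ≠ 0 := by
    intro hD
    have h2 : P + P = 0 := add_self_of_D_eq_zero E h hD
    have hψ3 : psi3 E x = 0 := by
      rw [hD] at h5'
      have : psi3 E x ^ 3 = 0 := by rw [← h5']; ring
      exact pow_eq_zero_iff (by norm_num) |>.mp this
    have h3 : (3 : ℤ) • P = 0 := three_smul_eq_zero' E h hψ3
    have h3' : P + P + P = 0 := by
      rw [← h3, show (3 : ℤ) = 1 + 1 + 1 by norm_num, add_smul, add_smul, one_smul]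
    rw [h2, zero_add] at h3'
    exact hP0 h3'
  obtain ⟨y₂, h₂, h2⟩ := add_self_of_D_ne_zero E h hD
  rw [← hP] at h2
  set x₂ := x - psi3 E x / D E x with hx₂
  have hDd := D_dbl E hD
  rw [← hx₂] at hDd
  -- Step 2: `ψ₃ x ≠ 0`
  have hψ3 : psi3 E x ≠ 0 := by
    intro hψ3
    have h3 : (3 : ℤ) • P = 0 := three_smul_eq_zero' E h hψ3
    have h3' : P + P + P = 0 := by
      rw [← h3, show (3 : ℤ) = 1 + 1 + 1 by norm_num, add_smul, add_smul, one_smul]
    have hpre : pre4 E x = 0 := by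
      rw [hψ3] at h5'
      have : pre4 E x * D E x ^ 2 = 0 := by rw [h5']; ring
      rcases mul_eq_zero.mp this with h0 | h0
      · exact h0
      · exact absurd (pow_eq_zero_iff two_ne_zero |>.mp h0) hD
    have hD2 : D E x₂ = 0 := by
      rw [hpre] at hDd
      have : D E x₂ * D E x ^ 3 = 0 := by rw [hDd]; ring
      rcases mul_eq_zero.mp this with h0 | h0
      · exact h0
      · exact absurd (pow_eq_zero_iff (by norm_num) |>.mp h0) hD
    have h4 : (P + P) + (P + P) = 0 := by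
      rw [h2]
      exact add_self_of_D_eq_zero E h₂ hD2
    apply hP0
    calc P = (P + P) + (P + P) - (P + P + P) := by abel
      _ = 0 := by rw [h4, h3', sub_zero]
  -- Step 3: `pre4 x ≠ 0`
  have hpre : pre4 E x ≠ 0 := by
    intro hpre
    rw [hpre, zero_mul] at h5'
    exact hψ3 (pow_eq_zero_iff (by norm_num) |>.mp h5'.symm)
  -- Step 4: `D x₂ ≠ 0` and `x₄ = x`
  have hD2 : D E x₂ ≠ 0 := by
    intro h0
    rw [h0, zero_mul] at hDd
    exact hpre (pow_eq_zero_iff two_ne_zero |>.mp hDd.symm)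
  obtain ⟨y₄, h₄, h4⟩ := add_self_of_D_ne_zero E h₂ hD2
  rw [← h2] at h4
  have hψd := psi3_dbl E hD
  rw [← hx₂, h5, zero_sub] at hψd
  have hx4 : x₂ - psi3 E x₂ / D E x₂ = x := by
    have e1 : psi3 E x₂ / D E x₂ = -(psi3 E x / D E x) := by
      rw [div_eq_iff hD2, neg_mul, eq_neg_iff_add_eq_zero]
      have hD3 : D E x ^ 4 ≠ 0 := pow_ne_zero _ hD
      apply mul_right_cancel₀ hD3
      rw [zero_mul, add_mul, hψd]
      have : psi3 E x / D E x * D E x₂ * D E x ^ 4
          = psi3 E x * (D E x₂ * D E x ^ 3) := by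
        field_simp
      rw [this, hDd]
      ring
    rw [e1, hx₂]
    ring
  -- Step 5: `4P = ±P`
  have h4' : (P + P) + (P + P) = P ∨ (P + P) + (P + P) = -P := by
    rw [h4, hP]
    exact (WeierstrassCurve.Affine.Point.X_eq_iff (h₁ := h₄) (h₂ := h)).mp hx4
  have h5s : (5 : ℤ) • P = (P + P) + (P + P) + P := by
    rw [show (5 : ℤ) = 1 + 1 + 1 + 1 + 1 by norm_num]
    simp only [add_smul, one_smul]
    abel
  rcases h4' with h4' | h4'
  · exfalso
    have h3 : (3 : ℤ) • P = 0 := by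
      rw [show (3 : ℤ) = 1 + 1 + 1 by norm_num, add_smul, add_smul, one_smul]
      calc P + P + P = (P + P) + (P + P) - P := by abel
        _ = 0 := by rw [h4', sub_self]
    exact hψ3 (psi3_eq_zero_of_three_smul E h h3)
  · rw [h5s, h4', neg_add_cancel]

end Field

section Root

variable {K : Type*} [Field K] (E : WeierstrassCurve.Affine K)

/-- `ψ₃` as a polynomial. -/
noncomputable def psi3Poly : K[X] :=
  C 3 * X ^ 4 + C E.b₂ * X ^ 3 + C (3 * E.b₄) * X ^ 2 + C (3 * E.b₆) * X ^ 1 + C E.b₈ * X ^ 0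

/-- `ψ₂²` as a polynomial. -/
noncomputable def DPoly : K[X] :=
  C 4 * X ^ 3 + C E.b₂ * X ^ 2 + C (2 * E.b₄) * X ^ 1 + C E.b₆ * X ^ 0

/-- `ψ₄/ψ₂` as a polynomial. -/
noncomputable def pre4Poly : K[X] :=
  C 2 * X ^ 6 + C E.b₂ * X ^ 5 + C (5 * E.b₄) * X ^ 4 + C (10 * E.b₆) * X ^ 3
    + C (10 * E.b₈) * X ^ 2 + C (E.b₂ * E.b₈ - E.b₄ * E.b₆) * X ^ 1
    + C (E.b₄ * E.b₈ - E.b₆ ^ 2) * X ^ 0

/-- `ψ₅` as a polynomial. -/
noncomputable def psi5Poly : K[X] := pre4Poly E * DPoly E ^ 2 - psi3Poly E ^ 3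

lemma eval_psi3Poly (x : K) : (psi3Poly E).eval x = psi3 E x := by
  simp only [psi3Poly, psi3, eval_add, eval_mul, eval_C, eval_pow, eval_X, pow_one, pow_zero,
    mul_one]

lemma eval_DPoly (x : K) : (DPoly E).eval x = D E x := by
  simp only [DPoly, D, eval_add, eval_mul, eval_C, eval_pow, eval_X, pow_one, pow_zero,
    mul_one]

lemma eval_pre4Poly (x : K) : (pre4Poly E).eval x = pre4 E x := by
  simp only [pre4Poly, pre4, eval_add, eval_mul, eval_C, eval_pow, eval_X, pow_one, pow_zero,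
    mul_one]

lemma eval_psi5Poly (x : K) : (psi5Poly E).eval x = psi5 E x := by
  simp only [psi5Poly, psi5, eval_sub, eval_mul, eval_pow, eval_psi3Poly, eval_DPoly,
    eval_pre4Poly]

lemma natDegree_psi3Poly_le : (psi3Poly E).natDegree ≤ 4 := by
  rw [psi3Poly]; compute_degree

lemma natDegree_DPoly_le : (DPoly E).natDegree ≤ 3 := by
  rw [DPoly]; compute_degree

lemma natDegree_pre4Poly_le : (pre4Poly E).natDegree ≤ 6 := by
  rw [pre4Poly]; compute_degree

lemma coeff_psi3Poly : (psi3Poly E).coeff 4 = 3 := by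
  simp only [psi3Poly, coeff_add, coeff_C_mul_X_pow]
  norm_num

lemma coeff_DPoly : (DPoly E).coeff 3 = 4 := by
  simp only [DPoly, coeff_add, coeff_C_mul_X_pow]
  norm_num

lemma coeff_pre4Poly : (pre4Poly E).coeff 6 = 2 := by
  simp only [pre4Poly, coeff_add, coeff_C_mul_X_pow]
  norm_num

lemma coeff_psi5Poly : (psi5Poly E).coeff 12 = 5 := by
  have hD2 : (DPoly E ^ 2).natDegree ≤ 6 :=
    calc (DPoly E ^ 2).natDegree ≤ 2 * (DPoly E).natDegree := natDegree_pow_le
      _ ≤ 2 * 3 := Nat.mul_le_mul_left _ (natDegree_DPoly_le E)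
  have hD2c : (DPoly E ^ 2).coeff (2 * 3) = 4 ^ 2 := by
    rw [coeff_pow_of_natDegree_le (natDegree_DPoly_le E), coeff_DPoly]
  have h1 : (pre4Poly E * DPoly E ^ 2).coeff (6 + 6) = 2 * 4 ^ 2 := by
    rw [coeff_mul_add_eq_of_natDegree_le (natDegree_pre4Poly_le E) hD2, coeff_pre4Poly]
    rw [show (6 : ℕ) = 2 * 3 from rfl, hD2c]
  have h2 : (psi3Poly E ^ 3).coeff (3 * 4) = 3 ^ 3 := by
    rw [coeff_pow_of_natDegree_le (natDegree_psi3Poly_le E), coeff_psi3Poly]
  rw [psi5Poly, coeff_sub, show (12 : ℕ) = 6 + 6 from rfl, h1, show (6 + 6 : ℕ) = 3 * 4 from rfl,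
    h2]
  norm_num

variable [IsAlgClosed K]

lemma exists_root_psi5 (h5 : (5 : K) ≠ 0) : ∃ x : K, psi5 E x = 0 := by
  have hdeg : (psi5Poly E).degree ≠ 0 := by
    have h12 : 12 ≤ (psi5Poly E).natDegree :=
      le_natDegree_of_ne_zero (by rw [coeff_psi5Poly]; exact h5)
    intro h0
    have h00 : (psi5Poly E).natDegree = 0 := natDegree_eq_of_degree_eq_some h0
    omega
  obtain ⟨x, hx⟩ := IsAlgClosed.exists_root (psi5Poly E) hdeg
  exact ⟨x, by rw [← eval_psi5Poly]; exact hx⟩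

end Root

section Final

open scoped WeierstrassCurve.Affine

variable {K : Type*} [Field K] [DecidableEq K] [IsAlgClosed K]

omit [DecidableEq K] in
/-- Over an algebraically closed field every `x` is the `x`-coordinate of a point of the curve. -/
lemma exists_equation (E : WeierstrassCurve.Affine K) (x : K) : ∃ y : K, E.Equation x y := by
  set q : K[X] := X ^ 2 + C (E.a₁ * x + E.a₃) * X
    - C (x ^ 3 + E.a₂ * x ^ 2 + E.a₄ * x + E.a₆) with hq
  have hdeg : q.degree = 2 := by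
    rw [hq]
    compute_degree!
  obtain ⟨y, hy⟩ := IsAlgClosed.exists_root q (by rw [hdeg]; norm_num)
  refine ⟨y, ?_⟩
  rw [WeierstrassCurve.Affine.equation_iff]
  have := hy
  rw [hq] at this
  simp only [IsRoot.def, eval_add, eval_sub, eval_mul, eval_C, eval_pow, eval_X] at this
  linear_combination this

/-- Over an algebraically closed field with `5 ≠ 0`, a Weierstrass curve with `Δ ≠ 0` has a
nonzero point killed by `5`. -/
theorem exists_five_torsion (E : WeierstrassCurve.Affine K) (hΔ : E.Δ ≠ 0) (h5 : (5 : K) ≠ 0) :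
    ∃ P : E.Point, P ≠ 0 ∧ (5 : ℤ) • P = 0 := by
  obtain ⟨x, hx⟩ := exists_root_psi5 E h5
  obtain ⟨y, hy⟩ := exists_equation E x
  have hns : E.Nonsingular x y :=
    (WeierstrassCurve.Affine.equation_iff_nonsingular_of_Δ_ne_zero hΔ).mp hy
  exact ⟨.some x y hns, WeierstrassCurve.Affine.Point.some_ne_zero hns,
    five_smul_eq_zero E hns hx⟩

/-- **Piece I2(b)**: the `5`-torsion of the base change to `ℚ̄` is nontrivial. -/
theorem nontrivial_torsion_five (W : WeierstrassCurve ℤ) (hΔ : W.Δ ≠ 0) :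
    Nontrivial (Submodule.torsionBy ℤ
      ((W.map (Int.castRingHom ℚ))⁄(AlgebraicClosure ℚ)).Point ((5 : ℕ) : ℤ)) := by
  obtain ⟨P, hP0, hP5⟩ := exists_five_torsion
    ((W.map (Int.castRingHom ℚ))⁄(AlgebraicClosure ℚ)) (baseChange_Δ_ne_zero W hΔ)
    (by norm_num)
  have hmem : P ∈ Submodule.torsionBy ℤ
      ((W.map (Int.castRingHom ℚ))⁄(AlgebraicClosure ℚ)).Point ((5 : ℕ) : ℤ) := by
    rw [Submodule.mem_torsionBy_iff]
    exact_mod_cast hP5
  refine ⟨⟨⟨P, hmem⟩, 0, ?_⟩⟩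
  intro h
  exact hP0 (congrArg Subtype.val h)

end Final


end Fermat.Agent.S51.Sq38.FiveNontrivial
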