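import Mathlib.AlgebraicGeometry.EllipticCurve.Affine.Point

/-!
# 3-torsion points of a Weierstrass curve over a field, via the 3-division polynomial

Squad S51/S38, piece I1 (helper218).  Pure algebra over an arbitrary field.
-/

set_option autoImplicit false

open WeierstrassCurve WeierstrassCurve.Affine WeierstrassCurve.Affine.Point

namespace Fermat.Agent.S51.Sq38.Three

section Alg

variable {F : Type*} [Field F] (V : WeierstrassCurve.Affine F)

/-- The 3-division polynomial in `x`, as a function. -/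
def psi3 (x : F) : F := 3*x^4 + V.b₂*x^3 + 3*V.b₄*x^2 + 3*V.b₆*x + V.b₈

/-- The squared 2-division polynomial in `x`, as a function. -/
def dpoly (x : F) : F := 4*x^3 + V.b₂*x^2 + 2*V.b₄*x + V.b₆

lemma eta_sq {x y : F} (heq : V.Equation x y) :
    (y - V.negY x y)^2 = dpoly V x := by
  rw [equation_iff] at heq
  simp only [dpoly, negY, WeierstrassCurve.b₂, WeierstrassCurve.b₄, WeierstrassCurve.b₆]
  linear_combination 4 * heq

lemma aux_identity (a₁ a₂ a₃ a₄ a₆ x y η ℓ : F)
    (heq : y ^ 2 + a₁ * x * y + a₃ * y = x ^ 3 + a₂ * x ^ 2 + a₄ * x + a₆)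
    (hη : η = 2 * y + a₁ * x + a₃)
    (hℓ : ℓ * η = 3 * x ^ 2 + 2 * a₂ * x + a₄ - a₁ * y) :
    (ℓ ^ 2 + a₁ * ℓ - a₂ - x - x - x) * η ^ 2 =
      - (3*x^4 + (a₁ ^ 2 + 4 * a₂)*x^3 + 3*(2 * a₄ + a₁ * a₃)*x^2 + 3*(a₃ ^ 2 + 4 * a₆)*x +
        (a₁ ^ 2 * a₆ + 4 * a₂ * a₆ - a₁ * a₃ * a₄ + a₂ * a₃ ^ 2 - a₄ ^ 2)) := by
  subst hη
  linear_combination (ℓ * (2 * y + a₁ * x + a₃) + 3 * x ^ 2 + 2 * a₂ * x + a₄ - a₁ * y
      + a₁ * (2 * y + a₁ * x + a₃)) * hℓ - (a₁^2 + 4*a₂ + 12*x) * heq

/-- At a point of the curve with `y = negY x y`, `ψ₃(x) = -g²`, `g` the `x`-partial derivative. -/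
lemma psi3_of_Y_eq {x y : F} (heq : V.Equation x y) (hy : y = V.negY x y) :
    psi3 V x = - (3 * x ^ 2 + 2 * V.a₂ * x + V.a₄ - V.a₁ * y) ^ 2 := by
  rw [equation_iff] at heq
  have hη : 2 * y + V.a₁ * x + V.a₃ = 0 := by
    simp only [negY] at hy; linear_combination hy
  simp only [psi3, WeierstrassCurve.b₂, WeierstrassCurve.b₄, WeierstrassCurve.b₆,
    WeierstrassCurve.b₈]
  linear_combination (-(V.a₁^2 + 4*V.a₂ + 12*x)) * heq +
    ((V.a₂ + 3 * x) * (2 * y + V.a₁ * x + V.a₃)
      - V.a₁ * (3 * x ^ 2 + 2 * V.a₂ * x + V.a₄ - V.a₁ * y)) * hη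

variable [DecidableEq F]

lemma addX_self_sub {x y : F} (heq : V.Equation x y) (hy : y ≠ V.negY x y) :
    (V.addX x x (V.slope x x y y) - x) * (y - V.negY x y)^2 = - psi3 V x := by
  have hη : y - V.negY x y ≠ 0 := sub_ne_zero.mpr hy
  rw [equation_iff] at heq
  have hℓ : V.slope x x y y * (y - V.negY x y) = 3 * x ^ 2 + 2 * V.a₂ * x + V.a₄ - V.a₁ * y := by
    rw [slope_of_Y_ne rfl hy]
    field_simp
  have := aux_identity V.a₁ V.a₂ V.a₃ V.a₄ V.a₆ x y (y - V.negY x y) (V.slope x x y y) heq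
    (by simp only [negY]; ring) hℓ
  simp only [psi3, addX, WeierstrassCurve.b₂, WeierstrassCurve.b₄, WeierstrassCurve.b₆,
    WeierstrassCurve.b₈]
  linear_combination this

omit [DecidableEq F] in
/-- A nonsingular point with `ψ₃(x) = 0` is not 2-torsion. -/
lemma Y_ne_of_psi3 {x y : F} (h : V.Nonsingular x y) (h3 : psi3 V x = 0) :
    y ≠ V.negY x y := by
  intro hy
  have hg := psi3_of_Y_eq V h.1 hy
  rw [h3] at hg
  have hg0 : 3 * x ^ 2 + 2 * V.a₂ * x + V.a₄ - V.a₁ * y = 0 := by
    have : (3 * x ^ 2 + 2 * V.a₂ * x + V.a₄ - V.a₁ * y) ^ 2 = 0 := by linear_combination hg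
    exact pow_eq_zero_iff (two_ne_zero) |>.mp this
  rcases (nonsingular_iff x y).mp h with ⟨_, h1 | h2⟩
  · exact h1 (by linear_combination -hg0)
  · exact h2 (by simpa only [negY] using hy)

/-- For a nonsingular affine point, `P + P + P = 0` iff `ψ₃(x) = 0`. -/
theorem add_add_self_eq_zero_iff {x y : F} (h : V.Nonsingular x y) :
    Point.some x y h + Point.some x y h + Point.some x y h = 0 ↔ psi3 V x = 0 := by
  constructor
  · intro h3
    have h2 : Point.some x y h + Point.some x y h = - Point.some x y h :=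
      eq_neg_of_add_eq_zero_left h3
    by_cases hy : y = V.negY x y
    · rw [add_self_of_Y_eq hy] at h2
      exact absurd h2.symm (neg_ne_zero.mpr (some_ne_zero h))
    · rw [add_self_of_Y_ne hy, neg_some] at h2
      have hx : V.addX x x (V.slope x x y y) = x := by
        simp only [Point.some.injEq] at h2
        exact h2.1
      have := addX_self_sub V h.1 hy
      rw [hx, sub_self, zero_mul] at this
      linear_combination this
  · intro h3
    have hy := Y_ne_of_psi3 V h h3
    have hη : y - V.negY x y ≠ 0 := sub_ne_zero.mpr hy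
    have hx : V.addX x x (V.slope x x y y) = x := by
      have := addX_self_sub V h.1 hy
      rw [h3, _root_.neg_zero] at this
      rcases mul_eq_zero.mp this with h0 | h0
      · exact sub_eq_zero.mp h0
      · exact absurd (pow_eq_zero_iff two_ne_zero |>.mp h0) hη
    have h2 := add_self_of_Y_ne (W := V) (h₁ := h) hy
    have hns : V.Nonsingular (V.addX x x (V.slope x x y y))
        (V.addY x x y (V.slope x x y y)) := nonsingular_add h h (fun hxy => hy hxy.2)
    rcases (X_eq_iff (h₁ := hns) (h₂ := h)).mp hx with hP | hP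
    · -- `2P = P` forces `P = 0`
      rw [← h2] at hP
      have : Point.some x y h = 0 := by
        have := congrArg (fun Q => Q - Point.some x y h) hP
        simp at this
      exact absurd this (some_ne_zero h)
    · rw [← h2] at hP
      rw [hP, neg_add_cancel]

end Alg

end Fermat.Agent.S51.Sq38.Three
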