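import Mathlib
import Fermat.Agent.S51.Sq38.ThreeAlg

/-!
# The set of 3-torsion points: nonempty and of size at most 9

Squad S51/S38, piece I1 (helper218).
-/

set_option autoImplicit false

open WeierstrassCurve WeierstrassCurve.Affine WeierstrassCurve.Affine.Point Polynomial

namespace Fermat.Agent.S51.Sq38.Three

section Tors

variable {F : Type*} [Field F] [DecidableEq F] (V : WeierstrassCurve.Affine F)

/-- `ψ₃` as a polynomial. -/
noncomputable def psi3Poly : F[X] :=
  C 3 * X ^ 4 + C V.b₂ * X ^ 3 + C (3 * V.b₄) * X ^ 2 + C (3 * V.b₆) * X + C V.b₈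

omit [DecidableEq F] in
lemma psi3Poly_eval (x : F) : (psi3Poly V).eval x = psi3 V x := by
  simp only [psi3Poly, psi3, eval_add, eval_mul, eval_C, eval_pow, eval_X]

omit [DecidableEq F] in
lemma psi3Poly_natDegree_le : (psi3Poly V).natDegree ≤ 4 := by
  unfold psi3Poly
  compute_degree

omit [DecidableEq F] in
lemma psi3Poly_natDegree (h3 : (3 : F) ≠ 0) : (psi3Poly V).natDegree = 4 := by
  unfold psi3Poly
  compute_degree!

omit [DecidableEq F] in
lemma psi3Poly_ne_zero (h3 : (3 : F) ≠ 0) : psi3Poly V ≠ 0 := by
  intro h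
  have := psi3Poly_natDegree V h3
  rw [h, natDegree_zero] at this
  omega

omit [DecidableEq F] in
lemma psi3Poly_degree_ne_zero (h3 : (3 : F) ≠ 0) : (psi3Poly V).degree ≠ 0 := by
  intro h
  have h0 : (psi3Poly V).natDegree = 0 := natDegree_eq_of_degree_eq_some h
  have := psi3Poly_natDegree V h3
  omega

/-- The Weierstrass equation as a monic quadratic polynomial in `y`. -/
noncomputable def yPoly (x : F) : F[X] :=
  X ^ 2 + C (V.a₁ * x + V.a₃) * X - C (x ^ 3 + V.a₂ * x ^ 2 + V.a₄ * x + V.a₆)

omit [DecidableEq F] in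
lemma yPoly_eval (x y : F) : (yPoly V x).eval y =
    y ^ 2 + V.a₁ * x * y + V.a₃ * y - (x ^ 3 + V.a₂ * x ^ 2 + V.a₄ * x + V.a₆) := by
  simp only [yPoly, eval_add, eval_sub, eval_mul, eval_C, eval_pow, eval_X]
  ring

omit [DecidableEq F] in
lemma yPoly_natDegree_le (x : F) : (yPoly V x).natDegree ≤ 2 := by
  unfold yPoly
  compute_degree

omit [DecidableEq F] in
lemma yPoly_natDegree (x : F) : (yPoly V x).natDegree = 2 := by
  unfold yPoly
  compute_degree!

omit [DecidableEq F] in
lemma yPoly_ne_zero (x : F) : yPoly V x ≠ 0 := by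
  intro h
  have := yPoly_natDegree V x
  rw [h, natDegree_zero] at this
  omega

omit [DecidableEq F] in
lemma yPoly_degree_ne_zero (x : F) : (yPoly V x).degree ≠ 0 := by
  intro h
  have h0 : (yPoly V x).natDegree = 0 := natDegree_eq_of_degree_eq_some h
  have := yPoly_natDegree V x
  omega

omit [DecidableEq F] in
lemma equation_iff_yPoly (x y : F) : V.Equation x y ↔ (yPoly V x).IsRoot y := by
  rw [equation_iff, IsRoot, yPoly_eval, sub_eq_zero]

/-- Existence of a nonzero 3-torsion point over an algebraically closed field. -/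
theorem exists_three_torsion [IsAlgClosed F] [V.IsElliptic] (h3 : (3 : F) ≠ 0) :
    ∃ (x y : F) (h : V.Nonsingular x y),
      Point.some x y h + Point.some x y h + Point.some x y h = 0 := by
  obtain ⟨x, hx⟩ := IsAlgClosed.exists_root (psi3Poly V) (psi3Poly_degree_ne_zero V h3)
  obtain ⟨y, hy⟩ := IsAlgClosed.exists_root (yPoly V x) (yPoly_degree_ne_zero V x)
  have heq : V.Equation x y := (equation_iff_yPoly V x y).mpr hy
  have hns : V.Nonsingular x y := equation_iff_nonsingular.mp heq
  refine ⟨x, y, hns, (add_add_self_eq_zero_iff V hns).mpr ?_⟩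
  rw [← psi3Poly_eval]; exact hx

/-- The finite set of candidate coordinates of nonzero 3-torsion points. -/
noncomputable def cand : Finset (F × F) :=
  (psi3Poly V).roots.toFinset.biUnion fun x => (yPoly V x).roots.toFinset.image fun y => (x, y)

lemma card_cand_le : (cand V).card ≤ 8 := by
  classical
  unfold cand
  refine (Finset.card_biUnion_le).trans ?_
  have h1 : ∀ x ∈ (psi3Poly V).roots.toFinset,
      ((yPoly V x).roots.toFinset.image fun y => (x, y)).card ≤ 2 := by
    intro x _
    refine Finset.card_image_le.trans ?_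
    refine (Multiset.toFinset_card_le _).trans ?_
    exact (card_roots' _).trans (yPoly_natDegree_le V x)
  refine (Finset.sum_le_card_nsmul _ _ 2 h1).trans ?_
  have h2 : (psi3Poly V).roots.toFinset.card ≤ 4 :=
    (Multiset.toFinset_card_le _).trans ((card_roots' _).trans (psi3Poly_natDegree_le V))
  simp only [smul_eq_mul]
  omega

lemma mem_cand_of_three_torsion (h3 : (3 : F) ≠ 0) {x y : F} (h : V.Nonsingular x y)
    (ht : Point.some x y h + Point.some x y h + Point.some x y h = 0) : (x, y) ∈ cand V := by
  classical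
  have hpsi : psi3 V x = 0 := (add_add_self_eq_zero_iff V h).mp ht
  unfold cand
  simp only [Finset.mem_biUnion, Multiset.mem_toFinset, Finset.mem_image, Prod.mk.injEq]
  refine ⟨x, ?_, y, ?_, rfl, rfl⟩
  · rw [mem_roots (psi3Poly_ne_zero V h3), IsRoot, psi3Poly_eval]; exact hpsi
  · rw [mem_roots (yPoly_ne_zero V x)]; exact (equation_iff_yPoly V x y).mp h.1

/-- Build a point from coordinates (junk value `0` if singular / off the curve). -/
noncomputable def mkPt (xy : F × F) : V.Point :=
  open Classical in if h : V.Nonsingular xy.1 xy.2 then Point.some xy.1 xy.2 h else 0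

/-- The set of 3-torsion points is finite with at most 9 elements. -/
theorem three_torsion_finite_card (h3 : (3 : F) ≠ 0) :
    Set.Finite {P : V.Point | P + P + P = 0} ∧ Set.ncard {P : V.Point | P + P + P = 0} ≤ 9 := by
  classical
  have hsub : {P : V.Point | P + P + P = 0} ⊆
      ((insert 0 ((cand V).image (mkPt V)) : Finset V.Point) : Set V.Point) := by
    intro P hP
    rcases P with _ | ⟨x, y, h⟩
    · simp [Point.zero_def]
    · have hmem := mem_cand_of_three_torsion V h3 h hP
      simp only [Finset.coe_insert, Finset.coe_image, Set.mem_insert_iff, Set.mem_image,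
        Finset.mem_coe]
      right
      refine ⟨(x, y), hmem, ?_⟩
      simp [mkPt, h]
  refine ⟨(Finset.finite_toSet _).subset hsub, ?_⟩
  refine (Set.ncard_le_ncard hsub (Finset.finite_toSet _)).trans ?_
  rw [Set.ncard_coe_finset]
  refine (Finset.card_insert_le _ _).trans ?_
  have := (Finset.card_image_le (s := cand V) (f := mkPt V)).trans (card_cand_le V)
  omega

end Tors

end Fermat.Agent.S51.Sq38.Three
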