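import Mathlib
import Fermat.Prelude.Def_FLTPrelim_ModularRep
import Fermat.Agent.S51.Sq38.ThreeTors

/-!
# Reducible mod-3 representation gives a rational root of `ψ₃`

Squad S51/S38, piece I1 (helper218).
-/

set_option autoImplicit false

open WeierstrassCurve WeierstrassCurve.Affine WeierstrassCurve.Affine.Point Polynomial

namespace Fermat.Agent.S51.Sq38.Three

/-- `ℚ̄`. -/
abbrev Kb := AlgebraicClosure ℚ

theorem isGalois_Kb : IsGalois ℚ Kb := by
  have h : (DivisionRing.toRatAlgebra : Algebra ℚ Kb) = AlgebraicClosure.instAlgebra ℚ :=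
    Subsingleton.elim _ _
  rw [h]
  let _ : Algebra ℚ (AlgebraicClosure ℚ) := AlgebraicClosure.instAlgebra ℚ
  exact IsAlgClosure.isGalois ℚ (AlgebraicClosure ℚ)

/-- An element of `ℚ̄` fixed by the whole Galois group is rational. -/
theorem rational_of_fixed (x : Kb) (hx : ∀ σ : Kb ≃ₐ[ℚ] Kb, σ x = x) :
    ∃ r : ℚ, algebraMap ℚ Kb r = x := by
  have := isGalois_Kb
  have := (InfiniteGalois.mem_bot_iff_fixed (k := ℚ) (K := Kb) x).mpr hx
  exact IntermediateField.mem_bot.mp this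

section

variable (W : WeierstrassCurve ℤ)

/-- The curve over `ℚ`. -/
abbrev EQ : WeierstrassCurve ℚ := W.map (Int.castRingHom ℚ)

/-- The curve over `ℚ̄`. -/
noncomputable abbrev EK : WeierstrassCurve.Affine Kb := (EQ W)⁄Kb

lemma EK_isElliptic (hΔ : W.Δ ≠ 0) : (EK W).IsElliptic := by
  refine ⟨?_⟩
  rw [isUnit_iff_ne_zero]
  show ((W.map (Int.castRingHom ℚ)).map (algebraMap ℚ Kb)).Δ ≠ 0
  rw [map_Δ, map_Δ]
  simpa using hΔ

/-- The 3-torsion submodule appearing in `ModRepIsIrreducible 3`. -/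
noncomputable abbrev T3 : Submodule ℤ (EK W).Point := Submodule.torsionBy ℤ (EK W).Point ((3 : ℕ) : ℤ)

lemma mem_T3_iff (P : (EK W).Point) : P ∈ T3 W ↔ P + P + P = 0 := by
  rw [Submodule.mem_torsionBy_iff, natCast_zsmul]
  have : (3 : ℕ) • P = P + P + P := by
    rw [show (3 : ℕ) = 2 + 1 from rfl, succ_nsmul, two_nsmul]
  rw [this]

lemma T3_coe_eq : ((T3 W : Submodule ℤ (EK W).Point) : Set (EK W).Point) =
    {P | P + P + P = 0} := by
  ext P
  exact mem_T3_iff W P

lemma T3_finite : (T3 W : Set (EK W).Point).Finite := by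
  rw [T3_coe_eq]
  exact (three_torsion_finite_card (EK W) (by norm_num)).1

lemma T3_ncard_le : (T3 W : Set (EK W).Point).ncard ≤ 9 := by
  rw [T3_coe_eq]
  exact (three_torsion_finite_card (EK W) (by norm_num)).2

instance T3_finite_inst : Finite (T3 W) := (T3_finite W).to_subtype

lemma T3_natCard_le : Nat.card (T3 W) ≤ 9 := by
  have := T3_ncard_le W
  rwa [← Nat.card_coe_set_eq] at this

instance fact_prime_three : Fact (Nat.Prime 3) := ⟨Nat.prime_three⟩

lemma T3_finrank_le : Module.finrank (ZMod 3) (T3 W) ≤ 2 := by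
  have hcard := Module.natCard_eq_pow_finrank (K := ZMod 3) (V := T3 W)
  rw [Nat.card_zmod] at hcard
  have hle := T3_natCard_le W
  rw [hcard] at hle
  by_contra hcon
  rw [not_le] at hcon
  have : 3 ^ 3 ≤ 3 ^ Module.finrank (ZMod 3) (T3 W) := Nat.pow_le_pow_right (by norm_num) hcon
  omega

lemma T3_nontrivial (hΔ : W.Δ ≠ 0) : Nontrivial (T3 W) := by
  have := EK_isElliptic W hΔ
  obtain ⟨x, y, h, h3⟩ := exists_three_torsion (EK W) (by norm_num)
  refine ⟨⟨⟨Point.some x y h, (mem_T3_iff W _).mpr h3⟩, 0, ?_⟩⟩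
  intro heq
  have := congrArg Subtype.val heq
  exact some_ne_zero h this

/-- Key step: a Galois-stable proper nonzero submodule of `E[3]` gives a Galois-fixed
`x`-coordinate which is a root of `ψ₃`. -/
theorem exists_fixed_root
    (N : Submodule (ZMod 3) (T3 W)) (hstable : IsGaloisStable ℚ N) (hbot : N ≠ ⊥) (htop : N ≠ ⊤) :
    ∃ x : Kb, psi3 (EK W) x = 0 ∧ ∀ σ : Kb ≃ₐ[ℚ] Kb, σ x = x := by
  have hfin : Module.Finite (ZMod 3) (T3 W) := Module.Finite.of_finite
  have h2 := T3_finrank_le W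
  have hlt := Submodule.finrank_lt htop
  have hpos : 1 ≤ Module.finrank (ZMod 3) N := Submodule.one_le_finrank_iff.mpr hbot
  have hone : Module.finrank (ZMod 3) N = 1 := by omega
  obtain ⟨v, hvN, hv0⟩ := Submodule.exists_mem_ne_zero_of_ne_bot hbot
  have hv0' : (⟨v, hvN⟩ : N) ≠ 0 := fun h => hv0 (congrArg Subtype.val h)
  have hspan := (finrank_eq_one_iff_of_nonzero' (⟨v, hvN⟩ : N) hv0').mp hone
  -- the underlying point
  have hvP : (v : (EK W).Point) ≠ 0 := fun h => hv0 (Subtype.ext h)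
  have hv3 : (v : (EK W).Point) + v + v = 0 := (mem_T3_iff W _).mp v.2
  rcases hP : (v : (EK W).Point) with _ | ⟨x, y, hns⟩
  · exact absurd hP hvP
  rw [hP] at hv3
  have hpsi : psi3 (EK W) x = 0 := (add_add_self_eq_zero_iff (EK W) hns).mp hv3
  refine ⟨x, hpsi, fun σ => ?_⟩
  obtain ⟨c, hc⟩ := hspan ⟨σ • v, hstable σ v hvN⟩
  have hc' : c • v = σ • v := by
    have := congrArg Subtype.val hc
    simpa using this
  have hc'' : ((c • v : T3 W) : (EK W).Point) = σ • (v : (EK W).Point) := by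
    rw [hc']; rfl
  have hσ : σ • (v : (EK W).Point) = Point.some (σ x) (σ y)
      ((baseChange_nonsingular (EQ W) (f := σ.toAlgHom) σ.injective x y).mpr hns) := by
    rw [algEquiv_smul_def, hP]
    exact Point.map_some σ.toAlgHom hns
  rw [hσ] at hc''
  have hcases : ∀ c : ZMod 3, c = 0 ∨ c = 1 ∨ c = 2 := by decide
  rcases hcases c with rfl | rfl | rfl
  · rw [zero_smul] at hc''
    exact absurd hc''.symm (some_ne_zero _)
  · rw [one_smul, hP] at hc''
    injection hc'' with h1 h2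
    exact h1.symm
  · rw [two_smul, Submodule.coe_add, hP] at hc''
    have h2P : Point.some x y hns + Point.some x y hns = - Point.some x y hns :=
      eq_neg_of_add_eq_zero_left hv3
    rw [h2P, neg_some] at hc''
    injection hc'' with h1 h2
    exact h1.symm

/-- **Three.main** (row-captain interface): if the mod-3 representation is not irreducible,
`ψ₃` has a rational root. -/
theorem exists_rational_root (hΔ : W.Δ ≠ 0) (h : ¬ W.ModRepIsIrreducible 3) :
    ∃ x : ℚ, 3 * x ^ 4 + (W.b₂ : ℚ) * x ^ 3 + 3 * (W.b₄ : ℚ) * x ^ 2 + 3 * (W.b₆ : ℚ) * x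
      + (W.b₈ : ℚ) = 0 := by
  have hnt := T3_nontrivial W hΔ
  have hex : ∃ N : Submodule (ZMod 3) (T3 W), IsGaloisStable ℚ N ∧ N ≠ ⊥ ∧ N ≠ ⊤ := by
    by_contra hcon
    apply h
    refine ⟨hnt, fun N hN => ?_⟩
    by_contra hN2
    rw [not_or] at hN2
    exact hcon ⟨N, hN, hN2.1, hN2.2⟩
  obtain ⟨N, hN, hbot, htop⟩ := hex
  obtain ⟨x, hpsi, hfix⟩ := exists_fixed_root W N hN hbot htop
  obtain ⟨r, rfl⟩ := rational_of_fixed x hfix
  refine ⟨r, ?_⟩
  have hinj : Function.Injective (algebraMap ℚ Kb) := (algebraMap ℚ Kb).injective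
  apply hinj
  rw [_root_.map_zero, ← hpsi]
  simp only [psi3, map_add, map_mul, map_pow, map_ofNat]
  show _ = 3 * _ ^ 4 + ((W.map (Int.castRingHom ℚ)).map (algebraMap ℚ Kb)).b₂ * _ ^ 3
    + 3 * ((W.map (Int.castRingHom ℚ)).map (algebraMap ℚ Kb)).b₄ * _ ^ 2
    + 3 * ((W.map (Int.castRingHom ℚ)).map (algebraMap ℚ Kb)).b₆ * _
    + ((W.map (Int.castRingHom ℚ)).map (algebraMap ℚ Kb)).b₈
  simp only [map_b₂, map_b₄, map_b₆, map_b₈, eq_intCast]

end

end Fermat.Agent.S51.Sq38.Three
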