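import Mathlib
import Fermat.Prelude.Def_FLTPrelim_ModularRep
import Fermat.Agent.S51.Sq38.ThreeGalois

/-!
# (I1): reducible mod 3 gives a rational point on `X₀(3)`

Squad S51/S38, piece I1 (helper218).
-/

set_option autoImplicit false

open WeierstrassCurve

namespace Fermat.Agent.S51.Sq38.Three

/-- Pure algebra: a root of `ψ₃` gives the `X₀(3)`-parameter `t = Δ / D(x₀)²`. -/
theorem x03_param {F : Type*} [Field F] (b₂ b₄ b₆ b₈ c₄ Δ x : F)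
    (hrel : 4 * b₈ = b₂ * b₆ - b₄ ^ 2)
    (hc₄ : c₄ = b₂ ^ 2 - 24 * b₄)
    (hΔ : Δ = -b₂ ^ 2 * b₈ - 8 * b₄ ^ 3 - 27 * b₆ ^ 2 + 9 * b₂ * b₄ * b₆)
    (hΔ0 : Δ ≠ 0)
    (hψ : 3 * x ^ 4 + b₂ * x ^ 3 + 3 * b₄ * x ^ 2 + 3 * b₆ * x + b₈ = 0) :
    ∃ t : F, t ≠ 0 ∧ c₄ ^ 3 * t = Δ * ((t + 27) * (t + 3) ^ 3) := by
  set B₂ : F := b₂ + 12 * x with hB₂
  set B₄ : F := b₄ + b₂ * x + 6 * x ^ 2 with hB₄
  set B₆ : F := 4 * x ^ 3 + b₂ * x ^ 2 + 2 * b₄ * x + b₆ with hB₆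
  have h1 : B₂ * B₆ = B₄ ^ 2 := by
    rw [hB₂, hB₄, hB₆]
    linear_combination 4 * hψ - hrel
  have h2 : c₄ = B₂ ^ 2 - 24 * B₄ := by
    rw [hc₄, hB₂, hB₄]; ring
  have h3 : Δ = B₄ ^ 3 - 27 * B₆ ^ 2 := by
    rw [hΔ, hB₄, hB₆]
    linear_combination (-(b₂ + 12 * x) ^ 2) * hψ +
      (9 * (b₄ + b₂ * x + 6 * x ^ 2)) * h1 + (6 * x * b₂ + 36 * x ^ 2) * hrel
  have hB₆0 : B₆ ≠ 0 := by
    intro h0
    have hB₄0 : B₄ = 0 := by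
      have : B₄ ^ 2 = 0 := by rw [← h1, h0, mul_zero]
      exact pow_eq_zero_iff two_ne_zero |>.mp this
    apply hΔ0
    rw [h3, hB₄0, h0]; ring
  have hcB : c₄ * B₆ ^ 2 = B₄ * (B₄ ^ 3 - 24 * B₆ ^ 2) := by
    rw [h2]
    linear_combination (B₂ * B₆ + B₄ ^ 2) * h1
  refine ⟨Δ / B₆ ^ 2, div_ne_zero hΔ0 (pow_ne_zero 2 hB₆0), ?_⟩
  have hB₆2 : B₆ ^ 2 ≠ 0 := pow_ne_zero 2 hB₆0
  have ht27 : Δ / B₆ ^ 2 + 27 = B₄ ^ 3 / B₆ ^ 2 := by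
    field_simp
    linear_combination h3
  have ht3 : Δ / B₆ ^ 2 + 3 = (B₄ ^ 3 - 24 * B₆ ^ 2) / B₆ ^ 2 := by
    field_simp
    linear_combination h3
  have hc : c₄ = B₄ * ((B₄ ^ 3 - 24 * B₆ ^ 2) / B₆ ^ 2) := by
    field_simp
    linear_combination hcB
  rw [ht27, ht3]
  rw [hc]
  field_simp

/-- **(I1)** in the squad interface form. -/
theorem i1_main (W : WeierstrassCurve ℤ) (hΔ : W.Δ ≠ 0) (h : ¬ W.ModRepIsIrreducible 3) :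
    ∃ t : ℚ, t ≠ 0 ∧ (W.c₄ : ℚ) ^ 3 * t = (W.Δ : ℚ) * ((t + 27) * (t + 3) ^ 3) := by
  obtain ⟨x, hx⟩ := exists_rational_root W hΔ h
  refine x03_param (W.b₂ : ℚ) (W.b₄ : ℚ) (W.b₆ : ℚ) (W.b₈ : ℚ) (W.c₄ : ℚ) (W.Δ : ℚ) x ?_ ?_ ?_ ?_ hx
  · have := W.b_relation
    exact_mod_cast this
  · simp only [WeierstrassCurve.c₄]; push_cast; ring
  · simp only [WeierstrassCurve.Δ]; push_cast; ring
  · exact_mod_cast hΔ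

end Fermat.Agent.S51.Sq38.Three
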